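import Fermat.Agent.RT8J.Joint
import Fermat.Agent.TWP.Tangent
import Fermat.Agent.LocRing.Full

/-!
# Framed surjections
-/

set_option autoImplicit false
set_option linter.unusedSectionVars false
set_option linter.unusedVariables false

namespace Fermat.Agent.RT8J

open IsLocalRing Module Matrix Fermat.Agent.DefRing Fermat.Agent.TWP Fermat.Agent.LocRing

section tangent

variable {𝒪 : Type} [CommRing 𝒪] [IsLocalRing 𝒪]
  {A : Type} [CommRing A] [IsLocalRing A] [Algebra 𝒪 A]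

theorem pi_eq_zero_iff (π : A →+* ResidueField 𝒪)
    (hπ : ∀ o, π (algebraMap 𝒪 A o) = residue 𝒪 o) (x : A) : π x = 0 ↔ x ∈ maximalIdeal A := by
  have hs : Function.Surjective π := by
    intro c
    obtain ⟨o, rfl⟩ := residue_surjective c
    exact ⟨_, hπ o⟩
  have hmax : (RingHom.ker π).IsMaximal := RingHom.ker_isMaximal_of_surjective π hs
  rw [← RingHom.mem_ker, IsLocalRing.eq_maximalIdeal hmax]

variable [IsAdicComplete (maximalIdeal 𝒪) 𝒪] [Finite (ResidueField 𝒪)]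
  [IsNoetherianRing A] [IsAdicComplete (maximalIdeal A) A]
  [IsLocalHom (algebraMap 𝒪 A)]

/-- The relative tangent criterion. -/
theorem exists_generators_of_der (π : A →+* ResidueField 𝒪)
    (hπ : ∀ o, π (algebraMap 𝒪 A o) = residue 𝒪 o) {ι : Type} (a : ι → A)
    (ha : ∀ i, a i ∈ maximalIdeal A) (g : ℕ) {X : Type} [Finite X]
    (hX : Nat.card X ≤ Nat.card (ResidueField 𝒪) ^ g)
    (f : {δ : A → ResidueField 𝒪 // IsDer 𝒪 π δ ∧ ∀ i, δ (a i) = 0} → X)
    (hf : Function.Injective f) :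
    ∃ y : Fin g → A, (∀ i, y i ∈ maximalIdeal A) ∧
      maximalIdeal A ≤ Ideal.span (Set.range a) ⊔ Ideal.span (Set.range y) ⊔
        (maximalIdeal 𝒪).map (algebraMap 𝒪 A) ⊔ maximalIdeal A ^ 2 := by
  set I : Ideal A := Ideal.span (Set.range a) with hI
  have hIm : I ≤ maximalIdeal A := by
    rw [hI, Ideal.span_le]
    rintro _ ⟨i, rfl⟩
    exact ha i
  have hItop : I ≠ ⊤ := ne_top_of_le_ne_top (maximalIdeal.isMaximal A).ne_top hIm
  have hnt : Nontrivial (A ⧸ I) := Ideal.Quotient.nontrivial_iff.mpr hItop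
  have hsurj : Function.Surjective (Ideal.Quotient.mk I) := Ideal.Quotient.mk_surjective
  have hlocq : IsLocalRing (A ⧸ I) := IsLocalRing.of_surjective' _ hsurj
  have hlh : IsLocalHom (Ideal.Quotient.mk I) := IsLocalHom.of_surjective _ hsurj
  have hcomp : IsAdicComplete (maximalIdeal (A ⧸ I)) (A ⧸ I) := by
    have : IsLocalHom (algebraMap A (A ⧸ I)) := hlh
    exact IsLocalRing.isAdicComplete_of_module_finite (𝒪 := A)
  have halg : ∀ o : 𝒪, algebraMap 𝒪 (A ⧸ I) o = Ideal.Quotient.mk I (algebraMap 𝒪 A o) :=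
    fun o => rfl
  have hloc' : IsLocalHom (algebraMap 𝒪 (A ⧸ I)) := by
    constructor
    intro o ho
    rw [halg] at ho
    exact (isUnit_map_iff (algebraMap 𝒪 A) o).mp ((isUnit_map_iff (Ideal.Quotient.mk I) _).mp ho)
  let π' : A ⧸ I →+* ResidueField 𝒪 := Ideal.Quotient.lift I π fun x hx =>
    (pi_eq_zero_iff π hπ x).mpr (hIm hx)
  have hπ'mk : ∀ x, π' (Ideal.Quotient.mk I x) = π x := fun x => rfl
  have hπ' : ∀ o, π' (algebraMap 𝒪 (A ⧸ I) o) = residue 𝒪 o := fun o => by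
    rw [halg, hπ'mk, hπ]
  have hder : ∀ δ : {δ : A ⧸ I → ResidueField 𝒪 // IsDer 𝒪 π' δ},
      IsDer 𝒪 π (fun x => δ.1 (Ideal.Quotient.mk I x)) ∧
        ∀ i, (fun x => δ.1 (Ideal.Quotient.mk I x)) (a i) = 0 := by
    intro δ
    refine ⟨⟨fun x y => ?_, fun x y => ?_, fun o => ?_⟩, fun i => ?_⟩
    · rw [map_add, δ.2.add]
    · rw [map_mul, δ.2.mul, hπ'mk, hπ'mk]
    · exact δ.2.alg o
    · beta_reduce
      have h0 : Ideal.Quotient.mk I (a i) = 0 :=
        Ideal.Quotient.eq_zero_iff_mem.mpr (Ideal.subset_span (Set.mem_range_self i))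
      rw [h0, δ.2.zero]
  let F : {δ : A ⧸ I → ResidueField 𝒪 // IsDer 𝒪 π' δ} → X := fun δ => f ⟨fun x => δ.1 (Ideal.Quotient.mk I x), hder δ⟩
  have hF : Function.Injective F := by
    intro δ δ' h
    have h1 := congrArg Subtype.val (hf h)
    apply Subtype.ext
    funext x
    obtain ⟨x, rfl⟩ := hsurj x
    exact congrFun h1 x
  obtain ⟨γ, hγ⟩ := exists_surj_of_der π' hπ' g hX F hF
  have hγloc : IsLocalHom (γ : MvPowerSeries (Fin g) 𝒪 →+* A ⧸ I) :=
    IsLocalHom.of_surjective _ hγ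
  choose y hy using fun i => hsurj (γ (MvPowerSeries.X i))
  have hmem : ∀ x : A, Ideal.Quotient.mk I x ∈ maximalIdeal (A ⧸ I) → x ∈ maximalIdeal A := by
    intro x hx
    rw [mem_maximalIdeal, mem_nonunits_iff] at hx ⊢
    exact fun h => hx (h.map _)
  have hym : ∀ i, y i ∈ maximalIdeal A := by
    intro i
    apply hmem
    rw [hy]
    refine mem_of_isLocalHom hγloc ?_
    rw [mv_mem_maximalIdeal]
    simp
  refine ⟨y, hym, fun x hx => ?_⟩
  -- lift to the power series ring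
  obtain ⟨p, hp⟩ := hγ (Ideal.Quotient.mk I x)
  have hpm : p ∈ maximalIdeal (MvPowerSeries (Fin g) 𝒪) := by
    rw [mem_maximalIdeal, mem_nonunits_iff]
    intro h
    have h1 := h.map γ
    rw [hp] at h1
    exact hx ((isUnit_map_iff (Ideal.Quotient.mk I) x).mp h1)
  set K : Ideal A := Ideal.span (Set.range y) ⊔ (maximalIdeal 𝒪).map (algebraMap 𝒪 A) with hK
  have h2 : (maximalIdeal (MvPowerSeries (Fin g) 𝒪)).map
      (γ : MvPowerSeries (Fin g) 𝒪 →+* A ⧸ I) ≤ K.map (Ideal.Quotient.mk I) := by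
    refine (Ideal.map_mono mv_max_le).trans ?_
    rw [Ideal.map_sup, hK, Ideal.map_sup]
    refine sup_le (le_sup_of_le_right ?_) (le_sup_of_le_left ?_)
    · rw [Ideal.map_map, Ideal.map_map]
      rw [Ideal.map_le_iff_le_comap]
      intro o ho
      rw [Ideal.mem_comap]
      have h3 : ((γ : MvPowerSeries (Fin g) 𝒪 →+* A ⧸ I).comp MvPowerSeries.C) o =
          ((Ideal.Quotient.mk I).comp (algebraMap 𝒪 A)) o := γ.commutes o
      rw [h3]
      exact Ideal.mem_map_of_mem _ ho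
    · rw [Ideal.map_span, Ideal.map_span, Ideal.span_le]
      rintro _ ⟨_, ⟨i, rfl⟩, rfl⟩
      refine Ideal.subset_span ⟨y i, ⟨i, rfl⟩, ?_⟩
      exact hy i
  have h3 : Ideal.Quotient.mk I x ∈ K.map (Ideal.Quotient.mk I) := by
    rw [← hp]
    exact h2 (Ideal.mem_map_of_mem (γ : MvPowerSeries (Fin g) 𝒪 →+* A ⧸ I) hpm)
  rw [Ideal.mem_map_iff_of_surjective _ hsurj] at h3
  obtain ⟨z, hz, hzx⟩ := h3
  have h4 : x - z ∈ I := by
    rw [← Ideal.Quotient.eq_zero_iff_mem, map_sub, hzx, sub_self]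
  have h5 : x = (x - z) + z := by ring
  rw [h5]
  refine Ideal.add_mem _ ?_ ?_
  · exact Ideal.mem_sup_left (Ideal.mem_sup_left (Ideal.mem_sup_left h4))
  · have h6 : K ≤ I ⊔ Ideal.span (Set.range y) ⊔ (maximalIdeal 𝒪).map (algebraMap 𝒪 A) :=
      sup_le (le_sup_of_le_left le_sup_right) le_sup_right
    exact Ideal.mem_sup_left (h6 hz)

end tangent

section frame

variable {Λ : Type} {R : Type} [CommRing R]

/-- the variables -/
noncomputable def zv (R : Type) [CommRing R] (l : Λ) (i : Fin 3) : MvPowerSeries (Λ × Fin 3) R :=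
  MvPowerSeries.X (l, i)

theorem isUnit_one_add_zv (l : Λ) : IsUnit (1 + zv R l 0) := by
  rw [MvPowerSeries.isUnit_iff_constantCoeff, map_add, map_one, zv,
    MvPowerSeries.constantCoeff_X, add_zero]
  exact isUnit_one

/-- the lower right entry -/
noncomputable def dd (R : Type) [CommRing R] (l : Λ) : MvPowerSeries (Λ × Fin 3) R :=
  (1 + zv R l 1 * zv R l 2) * Ring.inverse (1 + zv R l 0)

theorem one_add_mul_dd (l : Λ) : (1 + zv R l 0) * dd R l = 1 + zv R l 1 * zv R l 2 := by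
  rw [dd, mul_left_comm, Ring.mul_inverse_cancel _ (isUnit_one_add_zv l), mul_one]

/-- the frame -/
noncomputable def fg (R : Type) [CommRing R] (l : Λ) : M2 (MvPowerSeries (Λ × Fin 3) R) :=
  !![1 + zv R l 0, zv R l 1; zv R l 2, dd R l]

/-- the inverse frame -/
noncomputable def fginv (R : Type) [CommRing R] (l : Λ) : M2 (MvPowerSeries (Λ × Fin 3) R) :=
  !![dd R l, - zv R l 1; - zv R l 2, 1 + zv R l 0]

theorem fginv_mul_fg (l : Λ) : fginv R l * fg R l = 1 := by
  have h := one_add_mul_dd (R := R) l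
  rw [fginv, fg, Matrix.mul_fin_two, Matrix.one_fin_two]
  have e1 : dd R l * (1 + zv R l 0) + -zv R l 1 * zv R l 2 = 1 := by linear_combination h
  have e2 : dd R l * zv R l 1 + -zv R l 1 * dd R l = 0 := by ring
  have e3 : -zv R l 2 * (1 + zv R l 0) + (1 + zv R l 0) * zv R l 2 = 0 := by ring
  have e4 : -zv R l 2 * zv R l 1 + (1 + zv R l 0) * dd R l = 1 := by linear_combination h
  rw [e1, e2, e3, e4]

theorem fg_mul_fginv (l : Λ) : fg R l * fginv R l = 1 :=
  mul_eq_one_comm.mp (fginv_mul_fg l)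

/-- the framed Frobenius and monodromy -/
noncomputable def frM (l : Λ) (M : M2 R) : M2 (MvPowerSeries (Λ × Fin 3) R) :=
  fginv R l * M.map (MvPowerSeries.C : R →+* MvPowerSeries (Λ × Fin 3) R) * fg R l

end frame

section der

theorem der_mul {𝒪 A k : Type} [CommRing 𝒪] [CommRing A] [CommRing k] [Algebra 𝒪 A]
    {π : A →+* k} {D : A → k} (hD : IsDer 𝒪 π D) (M N : M2 A) :
    (M * N).map D = M.map π * N.map D + M.map D * N.map π := by
  refine Matrix.ext fun i j => ?_
  rw [Matrix.map_apply, Matrix.mul_apply, Fin.sum_univ_two, hD.add, hD.mul, hD.mul,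
    Matrix.add_apply, Matrix.mul_apply, Matrix.mul_apply, Fin.sum_univ_two, Fin.sum_univ_two]
  simp only [Matrix.map_apply]
  ring

variable {Λ : Type} {𝒪 R k : Type} [CommRing 𝒪] [CommRing R] [CommRing k] [Algebra 𝒪 R]
  {π : R →+* k}

variable (Λ π) in
/-- residue map on the framed ring -/
noncomputable def piA : MvPowerSeries (Λ × Fin 3) R →+* k :=
  π.comp MvPowerSeries.constantCoeff

theorem piA_C (x : R) : piA Λ π (MvPowerSeries.C x) = π x := by
  rw [piA, RingHom.comp_apply, MvPowerSeries.constantCoeff_C]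

theorem piA_zv (l : Λ) (i : Fin 3) : piA Λ π (zv R l i) = 0 := by
  rw [piA, RingHom.comp_apply, zv, MvPowerSeries.constantCoeff_X, map_zero]

theorem piA_dd (l : Λ) : piA Λ π (dd R l) = 1 := by
  have h := congrArg (piA Λ π) (one_add_mul_dd (R := R) l)
  simp only [map_mul, map_add, map_one, piA_zv] at h
  simpa using h

theorem map_fg (l : Λ) : (fg R l).map (piA Λ π) = 1 := by
  refine Matrix.ext fun i j => ?_
  rw [Matrix.map_apply]
  fin_cases i <;> fin_cases j <;> simp [fg, piA_zv, piA_dd]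

theorem map_fginv (l : Λ) : (fginv R l).map (piA Λ π) = 1 := by
  refine Matrix.ext fun i j => ?_
  rw [Matrix.map_apply]
  fin_cases i <;> fin_cases j <;> simp [fginv, piA_zv, piA_dd]

variable {D : MvPowerSeries (Λ × Fin 3) R → k} (hD : IsDer 𝒪 (piA Λ π) D)

/-- infinitesimal frame -/
noncomputable def ZZ (D : MvPowerSeries (Λ × Fin 3) R → k) (l : Λ) : M2 k :=
  !![D (zv R l 0), D (zv R l 1); D (zv R l 2), - D (zv R l 0)]

include hD in
theorem der_dd (l : Λ) : D (dd R l) = - D (zv R l 0) := by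
  have h := congrArg D (one_add_mul_dd (R := R) l)
  simp only [hD.mul, hD.add, hD.one, map_add, map_one, piA_zv, piA_dd] at h
  linear_combination h

include hD in
theorem der_fg (l : Λ) : (fg R l).map D = ZZ D l := by
  refine Matrix.ext fun i j => ?_
  rw [Matrix.map_apply]
  fin_cases i <;> fin_cases j <;> simp [fg, ZZ, hD.add, hD.one, der_dd hD]

include hD in
theorem der_fginv (l : Λ) : (fginv R l).map D = - ZZ D l := by
  refine Matrix.ext fun i j => ?_
  rw [Matrix.map_apply]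
  fin_cases i <;> fin_cases j <;> simp [fginv, ZZ, hD.add, hD.one, hD.neg, der_dd hD]

include hD in
theorem der_frM (l : Λ) (M : M2 R) : (frM l M).map D =
    M.map (fun x => D (MvPowerSeries.C x)) + M.map π * ZZ D l - ZZ D l * M.map π := by
  have h1 : (M.map (MvPowerSeries.C : R →+* MvPowerSeries (Λ × Fin 3) R)).map (piA Λ π) =
      M.map π := by
    refine Matrix.ext fun i j => ?_
    simp only [Matrix.map_apply, piA_C]
  have h2 : (M.map (MvPowerSeries.C : R →+* MvPowerSeries (Λ × Fin 3) R)).map D =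
      M.map (fun x => D (MvPowerSeries.C x)) := rfl
  have h3 : (fginv R l * M.map (MvPowerSeries.C : R →+* MvPowerSeries (Λ × Fin 3) R)).map
      (piA Λ π) = (fginv R l).map (piA Λ π) *
        (M.map (MvPowerSeries.C : R →+* MvPowerSeries (Λ × Fin 3) R)).map (piA Λ π) :=
    Matrix.map_mul
  rw [frM, der_mul hD, der_mul hD, h3, h1, h2, map_fg, map_fginv, der_fg hD, der_fginv hD]
  rw [one_mul, one_mul, mul_one, neg_mul]
  abel

theorem piA_frM (l : Λ) (M : M2 R) : (frM l M).map (piA Λ π) = M.map π := by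
  have h1 : (M.map (MvPowerSeries.C : R →+* MvPowerSeries (Λ × Fin 3) R)).map (piA Λ π) =
      M.map π := by
    refine Matrix.ext fun i j => ?_
    simp only [Matrix.map_apply, piA_C]
  rw [frM, Matrix.map_mul, Matrix.map_mul, h1, map_fg, map_fginv, one_mul, mul_one]

include hD in
/-- derivations of the framed ring are determined by their restriction to the constants and the
infinitesimal frames. -/
theorem der_ext [Finite Λ] {D' : MvPowerSeries (Λ × Fin 3) R → k}
    (hD' : IsDer 𝒪 (piA Λ π) D') (h1 : ∀ x, D (MvPowerSeries.C x) = D' (MvPowerSeries.C x))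
    (h2 : ∀ l i, D (zv R l i) = D' (zv R l i)) : D = D' := by
  funext f
  have h3 : ∀ f ∈ Ideal.span (Set.range
      (MvPowerSeries.X : Λ × Fin 3 → MvPowerSeries (Λ × Fin 3) R)), D f = D' f ∧
        piA Λ π f = 0 := by
    intro f hf
    induction hf using Submodule.span_induction with
    | mem x hx =>
      obtain ⟨⟨l, i⟩, rfl⟩ := hx
      exact ⟨h2 l i, piA_zv l i⟩
    | zero => exact ⟨by rw [hD.zero, hD'.zero], map_zero _⟩
    | add x y _ _ hx hy =>
      exact ⟨by rw [hD.add, hD'.add, hx.1, hy.1], by rw [map_add, hx.2, hy.2, add_zero]⟩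
    | smul a x _ hx =>
      rw [smul_eq_mul]
      exact ⟨by rw [hD.mul, hD'.mul, hx.1, hx.2, mul_zero, mul_zero],
        by rw [map_mul, hx.2, mul_zero]⟩
  have h4 : f - MvPowerSeries.C (MvPowerSeries.constantCoeff f) ∈ Ideal.span (Set.range
      (MvPowerSeries.X : Λ × Fin 3 → MvPowerSeries (Λ × Fin 3) R)) := by
    have h5 := RT1.sub_truncTotal_mem 1 f
    rw [pow_one] at h5
    have h6 : ((MvPowerSeries.truncTotal 1 f : MvPolynomial (Λ × Fin 3) R) :
        MvPowerSeries (Λ × Fin 3) R) = MvPowerSeries.C (MvPowerSeries.constantCoeff f) := by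
      classical
      ext m
      rw [MvPolynomial.coeff_coe, MvPowerSeries.coeff_C]
      by_cases hm : m = 0
      · subst hm
        rw [MvPowerSeries.coeff_truncTotal _ (by simp), if_pos rfl]
        rfl
      · rw [if_neg hm, MvPowerSeries.coeff_truncTotal_eq_zero]
        rw [Nat.one_le_iff_ne_zero, ne_eq, Finsupp.degree_eq_zero_iff]
        exact hm
    rwa [h6] at h5
  have h7 := (h3 _ h4).1
  rw [hD.sub, hD'.sub, h1] at h7
  exact sub_left_injective h7

end der

section main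

variable {𝒪 : Type} [CommRing 𝒪] [IsLocalRing 𝒪] {rbar : GQ →* M2 (ResidueField 𝒪)}
  {R : Type} [CommRing R] [Algebra 𝒪 R] {Λ Υ : Type}

/-- The framed tangent space. -/
def TanX (π : R →+* ResidueField 𝒪) (r0 : GQ →* M2 R) (φ τ : Λ → GQ) (s : Υ → R) :
    Set ((R → ResidueField 𝒪) × (Λ → M2 (ResidueField 𝒪))) :=
  {p | IsDer 𝒪 π p.1 ∧ (∀ l, (p.2 l).trace = 0) ∧
    (∀ l, (r0 (φ l)).map p.1 = (r0 (φ l)).map π * p.2 l - p.2 l * (r0 (φ l)).map π) ∧
    (∀ l, (r0 (τ l)).map p.1 = (r0 (τ l)).map π * p.2 l - p.2 l * (r0 (τ l)).map π) ∧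
    ∀ u, p.1 (s u) = 0}

variable [IsLocalRing R]

theorem map_pi_of_red (π : R →+* ResidueField 𝒪)
    (hπ : ∀ o, π (algebraMap 𝒪 R o) = residue 𝒪 o) {r0 : GQ →* M2 R} (hr : Red rbar r0)
    (σ : GQ) : (r0 σ).map π = rbar σ := by
  refine Matrix.ext fun i j => ?_
  rw [Matrix.map_apply]
  obtain ⟨o, ho⟩ := residue_surjective (R := 𝒪) (rbar σ i j)
  have h1 := (pi_eq_zero_iff π hπ _).mpr (hr σ i j o ho)
  rw [map_sub, hπ, sub_eq_zero] at h1
  rw [h1, ho]

theorem map_sub_one_pi {k : Type} [CommRing k] (π : R →+* k) (M : M2 R) :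
    (M - 1).map π = M.map π - 1 := by
  refine Matrix.ext fun i j => ?_
  rw [Matrix.map_apply, Matrix.sub_apply, map_sub, Matrix.sub_apply, Matrix.map_apply]
  congr 1
  by_cases h : i = j
  · subst h; rw [Matrix.one_apply_eq, map_one, Matrix.one_apply_eq]
  · rw [Matrix.one_apply_ne h, map_zero, Matrix.one_apply_ne h]

/-- existence of the residue map to `k` -/
theorem exists_pi [IsLocalHom (algebraMap 𝒪 R)]
    (hs : Function.Surjective (residue R ∘ algebraMap 𝒪 R)) :
    ∃ π : R →+* ResidueField 𝒪, ∀ o, π (algebraMap 𝒪 R o) = residue 𝒪 o := by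
  have h1 : Function.Bijective (ResidueField.map (algebraMap 𝒪 R)) := by
    refine ⟨RingHom.injective _, fun y => ?_⟩
    obtain ⟨o, ho⟩ := hs y
    exact ⟨residue 𝒪 o, (ResidueField.map_residue _ o).trans ho⟩
  let e := RingEquiv.ofBijective _ h1
  refine ⟨(e.symm : ResidueField R →+* ResidueField 𝒪).comp (residue R), fun o => ?_⟩
  show e.symm (residue R (algebraMap 𝒪 R o)) = _
  rw [RingEquiv.symm_apply_eq]
  exact (ResidueField.map_residue _ o).symm

/-- derivations on a joint ring are determined by the matrix entries -/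
theorem JRing.der_ext {sd : SliceData rbar} {J : Type} {T : J → Type} [∀ j, CommRing (T j)]
    [∀ j, Algebra 𝒪 (T j)] {r : ∀ j, GQ →* M2 (T j)} (A : JRing sd T r) {k : Type} [CommRing k]
    {π : A.R →+* k} {δ δ' : A.R → k} (hδ : IsDer 𝒪 π δ) (hδ' : IsDer 𝒪 π δ')
    (h : ∀ σ, (A.r0 σ).map δ = (A.r0 σ).map δ') : δ = δ' := by
  funext x
  have hx : x ∈ Algebra.adjoin 𝒪 {x : A.R | ∃ σ i j, x = A.r0 σ i j} := by
    rw [A.adj]; trivial
  induction hx using Algebra.adjoin_induction with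
  | mem x hx =>
    obtain ⟨σ, i, j, rfl⟩ := hx
    exact congrFun (congrFun (h σ) i) j
  | algebraMap o => rw [hδ.alg, hδ'.alg]
  | add x y _ _ hx hy => rw [hδ.add, hδ'.add, hx, hy]
  | mul x y _ _ hx hy => rw [hδ.mul, hδ'.mul, hx, hy]

variable [IsNoetherianRing 𝒪] [IsAdicComplete (maximalIdeal 𝒪) 𝒪] [Finite (ResidueField 𝒪)]
  [IsNoetherianRing R] [IsAdicComplete (maximalIdeal R) R]
  [IsLocalHom (algebraMap 𝒪 R)] [Finite Λ] [Finite Υ]

/-- **The framed surjection.** -/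
theorem exists_framed_surj (π : R →+* ResidueField 𝒪)
    (hπ : ∀ o, π (algebraMap 𝒪 R o) = residue 𝒪 o) (r0 : GQ →* M2 R) (φ τ : Λ → GQ)
    (s : Υ → R) (hs : ∀ u, s u ∈ maximalIdeal R) (F₀ N₀ : Λ → M2 𝒪)
    (hF : ∀ l, (F₀ l).map (residue 𝒪) = (r0 (φ l)).map π)
    (hN : ∀ l, (N₀ l).map (residue 𝒪) = (r0 (τ l) - 1).map π) (g : ℕ)
    (hfin : (TanX (𝒪 := 𝒪) π r0 φ τ s).Finite)
    (hcard : Nat.card (TanX (𝒪 := 𝒪) π r0 φ τ s) ≤ Nat.card (ResidueField 𝒪) ^ g) :
    ∃ Θ : MvPowerSeries (FIdx Λ (Υ ⊕ Fin g)) 𝒪 →ₐ[𝒪] MvPowerSeries (Λ × Fin 3) R,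
      Function.Surjective Θ ∧
      (∀ l i j, Θ (fullF (Υ ⊕ Fin g) F₀ l i j) = frM l (r0 (φ l)) i j) ∧
      (∀ l i j, Θ (fullN (Υ ⊕ Fin g) N₀ l i j) = frM l (r0 (τ l) - 1) i j) ∧
      (∀ u, Θ (MvPowerSeries.X (Sum.inr (Sum.inl u))) = MvPowerSeries.C (s u)) ∧
      (∀ i, Θ (MvPowerSeries.X i) ∈ maximalIdeal (MvPowerSeries (Λ × Fin 3) R)) := by
  classical
  let A : Type := MvPowerSeries (Λ × Fin 3) R
  have halg : ∀ o, algebraMap 𝒪 (MvPowerSeries (Λ × Fin 3) R) o =
      MvPowerSeries.C (algebraMap 𝒪 R o) := fun o => MvPowerSeries.algebraMap_apply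
  have hπA : ∀ o, piA Λ π (algebraMap 𝒪 (MvPowerSeries (Λ × Fin 3) R) o) = residue 𝒪 o := by
    intro o
    rw [halg, piA_C, hπ]
  have hlocA : IsLocalHom (algebraMap 𝒪 (MvPowerSeries (Λ × Fin 3) R)) := by
    refine isLocalHom_of_mem _ fun o ho => ?_
    rw [← pi_eq_zero_iff (piA Λ π) hπA, hπA, residue_eq_zero_iff]
    exact ho
  have hmem : ∀ x : MvPowerSeries (Λ × Fin 3) R, piA Λ π x = 0 ↔
      x ∈ maximalIdeal (MvPowerSeries (Λ × Fin 3) R) := pi_eq_zero_iff (piA Λ π) hπA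
  -- the local elements
  let F' : Λ → M2 (MvPowerSeries (Λ × Fin 3) R) := fun l => frM l (r0 (φ l))
  let N' : Λ → M2 (MvPowerSeries (Λ × Fin 3) R) := fun l => frM l (r0 (τ l) - 1)
  have hF' : ∀ l i j, F' l i j - algebraMap 𝒪 _ (F₀ l i j) ∈
      maximalIdeal (MvPowerSeries (Λ × Fin 3) R) := by
    intro l i j
    rw [← hmem, map_sub, hπA, sub_eq_zero]
    have h1 := congrFun (congrFun (piA_frM (π := π) l (r0 (φ l))) i) j
    rw [← hF l] at h1
    exact h1
  have hN' : ∀ l i j, N' l i j - algebraMap 𝒪 _ (N₀ l i j) ∈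
      maximalIdeal (MvPowerSeries (Λ × Fin 3) R) := by
    intro l i j
    rw [← hmem, map_sub, hπA, sub_eq_zero]
    have h1 := congrFun (congrFun (piA_frM (π := π) l (r0 (τ l) - 1)) i) j
    rw [← hN l] at h1
    exact h1
  have hs' : ∀ u, (MvPowerSeries.C (s u) : MvPowerSeries (Λ × Fin 3) R) ∈
      maximalIdeal (MvPowerSeries (Λ × Fin 3) R) := by
    intro u
    rw [← hmem, piA_C, pi_eq_zero_iff π hπ]
    exact hs u
  let a : FIdx Λ Υ → MvPowerSeries (Λ × Fin 3) R :=
    evY (algebraMap 𝒪 (MvPowerSeries (Λ × Fin 3) R)) F₀ N₀ F' N'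
      (fun u => MvPowerSeries.C (s u))
  have ha : ∀ i, a i ∈ maximalIdeal (MvPowerSeries (Λ × Fin 3) R) := by
    rintro (⟨l, i, j, k⟩ | u)
    · match k with
      | 0 => exact hF' l i j
      | 1 => exact hN' l i j
    · exact hs' u
  -- the tangent space
  have hfin' : Finite (TanX (𝒪 := 𝒪) π r0 φ τ s) := hfin
  have key : ∀ D : {δ : MvPowerSeries (Λ × Fin 3) R → ResidueField 𝒪 //
      IsDer 𝒪 (piA Λ π) δ ∧ ∀ i, δ (a i) = 0},
      ((fun x => D.1 (MvPowerSeries.C x)), fun l => - ZZ D.1 l) ∈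
        TanX (𝒪 := 𝒪) π r0 φ τ s := by
    rintro ⟨D, hD, hDa⟩
    have hFr : ∀ l, (frM l (r0 (φ l))).map D = 0 := by
      intro l
      refine Matrix.ext fun i j => ?_
      have h1 := hDa (Sum.inl (l, i, j, 0))
      have h2 : D (F' l i j - algebraMap 𝒪 _ (F₀ l i j)) = 0 := h1
      rw [hD.sub, hD.alg, sub_zero] at h2
      exact h2
    have hNr : ∀ l, (frM l (r0 (τ l) - 1)).map D = 0 := by
      intro l
      refine Matrix.ext fun i j => ?_
      have h1 := hDa (Sum.inl (l, i, j, 1))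
      have h2 : D (N' l i j - algebraMap 𝒪 _ (N₀ l i j)) = 0 := h1
      rw [hD.sub, hD.alg, sub_zero] at h2
      exact h2
    refine ⟨⟨fun x y => ?_, fun x y => ?_, fun o => ?_⟩, fun l => ?_, fun l => ?_, fun l => ?_,
      fun u => ?_⟩
    · show D (MvPowerSeries.C (x + y)) = _
      rw [map_add, hD.add]
    · show D (MvPowerSeries.C (x * y)) = _
      rw [map_mul, hD.mul, piA_C, piA_C]
    · show D (MvPowerSeries.C (algebraMap 𝒪 R o)) = 0
      rw [← halg, hD.alg]
    · show (- ZZ D l).trace = 0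
      rw [Matrix.trace_neg, Matrix.trace_fin_two]
      simp [ZZ]
    · have h1 := hFr l
      rw [der_frM hD] at h1
      show (r0 (φ l)).map (fun x => D (MvPowerSeries.C x)) =
        (r0 (φ l)).map π * (- ZZ D l) - (- ZZ D l) * (r0 (φ l)).map π
      rw [mul_neg, neg_mul, ← sub_eq_zero]
      rw [← h1]
      abel
    · have h1 := hNr l
      rw [der_frM hD] at h1
      have h2 : (r0 (τ l) - 1).map (fun x => D (MvPowerSeries.C x)) =
          (r0 (τ l)).map (fun x => D (MvPowerSeries.C x)) := by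
        refine Matrix.ext fun i j => ?_
        rw [Matrix.map_apply, Matrix.map_apply, Matrix.sub_apply, map_sub, hD.sub]
        have h3 : D (MvPowerSeries.C ((1 : M2 R) i j)) = 0 := by
          by_cases h : i = j
          · subst h; rw [Matrix.one_apply_eq, map_one, hD.one]
          · rw [Matrix.one_apply_ne h, map_zero, hD.zero]
        rw [h3, sub_zero]
      have h4 : (r0 (τ l) - 1).map π = (r0 (τ l)).map π - 1 := by
        refine Matrix.ext fun i j => ?_
        rw [Matrix.map_apply, Matrix.sub_apply, map_sub, Matrix.sub_apply, Matrix.map_apply]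
        congr 1
        by_cases h : i = j
        · subst h; rw [Matrix.one_apply_eq, map_one, Matrix.one_apply_eq]
        · rw [Matrix.one_apply_ne h, map_zero, Matrix.one_apply_ne h]
      rw [h2, h4, sub_mul, mul_sub, one_mul, mul_one] at h1
      show (r0 (τ l)).map (fun x => D (MvPowerSeries.C x)) =
        (r0 (τ l)).map π * (- ZZ D l) - (- ZZ D l) * (r0 (τ l)).map π
      rw [mul_neg, neg_mul, ← sub_eq_zero]
      rw [← h1]
      abel
    · exact hDa (Sum.inr u)
  obtain ⟨y, hy, hgen⟩ := exists_generators_of_der (piA Λ π) hπA a ha g hcard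
    (fun D => ⟨_, key D⟩) (by
      intro D D' h
      have h1 := congrArg Subtype.val h
      have h2 := congrFun (congrArg Prod.fst h1)
      have h3 := congrFun (congrArg Prod.snd h1)
      apply Subtype.ext
      refine der_ext D.2.1 D'.2.1 h2 fun l i => ?_
      have h4 : ZZ D.1 l = ZZ D'.1 l := neg_injective (h3 l)
      match i with
      | 0 => exact congrFun (congrFun h4 0) 0
      | 1 => exact congrFun (congrFun h4 0) 1
      | 2 => exact congrFun (congrFun h4 1) 0)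
  -- the evaluation
  let Y : FIdx Λ (Υ ⊕ Fin g) → MvPowerSeries (Λ × Fin 3) R :=
    evY (algebraMap 𝒪 (MvPowerSeries (Λ × Fin 3) R)) F₀ N₀ F' N'
      (Sum.elim (fun u => MvPowerSeries.C (s u)) y)
  have hY : ∀ i, Y i ∈ maximalIdeal (MvPowerSeries (Λ × Fin 3) R) := by
    rintro (⟨l, i, j, k⟩ | u | i)
    · match k with
      | 0 => exact hF' l i j
      | 1 => exact hN' l i j
    · exact hs' u
    · exact hy i
  let Θ : MvPowerSeries (FIdx Λ (Υ ⊕ Fin g)) 𝒪 →ₐ[𝒪] MvPowerSeries (Λ × Fin 3) R :=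
    RT1.evalHom (maximalIdeal (MvPowerSeries (Λ × Fin 3) R)) Y hY
  have hΘX : ∀ i, Θ (MvPowerSeries.X i) = Y i := fun i => RT1.evalHom_X _ Y hY i
  have hΘC : ∀ o, Θ (MvPowerSeries.C o) = algebraMap 𝒪 _ o := fun o => Θ.commutes o
  have hΘmax : (maximalIdeal (MvPowerSeries (FIdx Λ (Υ ⊕ Fin g)) 𝒪)).map
      (Θ : MvPowerSeries (FIdx Λ (Υ ⊕ Fin g)) 𝒪 →+* MvPowerSeries (Λ × Fin 3) R) ≤
        maximalIdeal (MvPowerSeries (Λ × Fin 3) R) := by
    refine (Ideal.map_mono mv_max_le).trans ?_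
    rw [Ideal.map_sup]
    refine sup_le ?_ ?_
    · rw [Ideal.map_map, Ideal.map_le_iff_le_comap]
      intro o ho
      rw [Ideal.mem_comap]
      have h1 : ((Θ : MvPowerSeries (FIdx Λ (Υ ⊕ Fin g)) 𝒪 →+*
        MvPowerSeries (Λ × Fin 3) R).comp MvPowerSeries.C) o = algebraMap 𝒪 _ o := hΘC o
      rw [h1]
      exact mem_of_isLocalHom hlocA ho
    · rw [Ideal.map_le_iff_le_comap, Ideal.span_le]
      rintro _ ⟨i, rfl⟩
      show Θ (MvPowerSeries.X i) ∈ maximalIdeal (MvPowerSeries (Λ × Fin 3) R)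
      rw [hΘX]
      exact hY i
  refine ⟨Θ, ?_, ?_, ?_, ?_, ?_⟩
  · refine RT1.surjective_of_generators
      (Θ : MvPowerSeries (FIdx Λ (Υ ⊕ Fin g)) 𝒪 →+* MvPowerSeries (Λ × Fin 3) R) hΘmax ?_ ?_
    · intro x
      obtain ⟨o, ho⟩ := residue_surjective (R := 𝒪) (piA Λ π x)
      refine ⟨MvPowerSeries.C o, ?_⟩
      have h1 : (Θ : MvPowerSeries (FIdx Λ (Υ ⊕ Fin g)) 𝒪 →+* MvPowerSeries (Λ × Fin 3) R)
        (MvPowerSeries.C o) = algebraMap 𝒪 _ o := hΘC o
      rw [h1, ← hmem, map_sub, hπA, ho, sub_self]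
    · refine hgen.trans (sup_le_sup_right (sup_le (sup_le ?_ ?_) ?_) _)
      · rw [Ideal.span_le]
        rintro _ ⟨i, rfl⟩
        have h1 : ∃ i' : FIdx Λ (Υ ⊕ Fin g), Y i' = a i := by
          rcases i with ⟨l, i, j, k⟩ | u
          · exact ⟨Sum.inl (l, i, j, k), rfl⟩
          · exact ⟨Sum.inr (Sum.inl u), rfl⟩
        obtain ⟨i', hi'⟩ := h1
        rw [← hi', ← hΘX]
        exact Ideal.mem_map_of_mem
          (Θ : MvPowerSeries (FIdx Λ (Υ ⊕ Fin g)) 𝒪 →+* MvPowerSeries (Λ × Fin 3) R)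
          (X_mem_max i')
      · rw [Ideal.span_le]
        rintro _ ⟨i, rfl⟩
        have h1 : Y (Sum.inr (Sum.inr i)) = y i := rfl
        rw [← h1, ← hΘX]
        exact Ideal.mem_map_of_mem
          (Θ : MvPowerSeries (FIdx Λ (Υ ⊕ Fin g)) 𝒪 →+* MvPowerSeries (Λ × Fin 3) R)
          (X_mem_max _)
      · rw [Ideal.map_le_iff_le_comap]
        intro o ho
        rw [Ideal.mem_comap, ← hΘC]
        refine Ideal.mem_map_of_mem
          (Θ : MvPowerSeries (FIdx Λ (Υ ⊕ Fin g)) 𝒪 →+* MvPowerSeries (Λ × Fin 3) R) ?_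
        rw [mv_mem_maximalIdeal, MvPowerSeries.constantCoeff_C]
        exact ho
  · intro l i j
    rw [fullF, map_add, hΘC, hΘX]
    show algebraMap 𝒪 _ (F₀ l i j) + (F' l i j - algebraMap 𝒪 _ (F₀ l i j)) = F' l i j
    ring
  · intro l i j
    rw [fullN, map_add, hΘC, hΘX]
    show algebraMap 𝒪 _ (N₀ l i j) + (N' l i j - algebraMap 𝒪 _ (N₀ l i j)) = N' l i j
    ring
  · intro u
    rw [hΘX]; rfl
  · intro i
    rw [hΘX]; exact hY i

end main

end Fermat.Agent.RT8J
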