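import Fermat.Agent.DefRing.Slice
import Fermat.Prelude.Thm_IsLocalRing_isAdicComplete_of_module_finite

/-!
# Joint rings: the ring generated by the matrix entries of a finite family of representations
-/

set_option autoImplicit false
set_option linter.unusedSectionVars false
set_option linter.unusedVariables false

namespace Fermat.Agent.RT8J

open IsLocalRing Module Matrix Fermat.Agent.DefRing

section finite

/-- The maximal ideal of a finite local algebra is nilpotent modulo `𝔪_O`. -/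
theorem exists_pow_le_map {O T : Type*} [CommRing O] [IsLocalRing O] [IsNoetherianRing O]
    [CommRing T] [IsLocalRing T] [Algebra O T] [Module.Finite O T] :
    ∃ N : ℕ, maximalIdeal T ^ N ≤ (maximalIdeal O).map (algebraMap O T) := by
  have hint : Algebra.IsIntegral O T := inferInstance
  have hnoeth : IsNoetherianRing T := IsNoetherianRing.of_finite O T
  have h1 : maximalIdeal T ≤ ((maximalIdeal O).map (algebraMap O T)).radical := by
    rw [Ideal.radical_eq_sInf]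
    refine le_sInf ?_
    rintro P ⟨hP, hPp⟩
    have h2 : P.comap (algebraMap O T) = maximalIdeal O := by
      have h3 : maximalIdeal O ≤ P.comap (algebraMap O T) := Ideal.map_le_iff_le_comap.mp hP
      exact ((IsLocalRing.maximalIdeal.isMaximal O).eq_of_le
        (Ideal.comap_ne_top _ hPp.ne_top) h3).symm
    have h4 : (P.comap (algebraMap O T)).IsMaximal := by
      rw [h2]; infer_instance
    have h5 := Ideal.isMaximal_of_isIntegral_of_isMaximal_comap (R := O) P h4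
    exact (IsLocalRing.eq_maximalIdeal h5).ge
  obtain ⟨n, hn⟩ := Ideal.exists_radical_pow_le_of_fg ((maximalIdeal O).map (algebraMap O T))
    (IsNoetherian.noetherian _)
  exact ⟨n, (Ideal.pow_right_mono h1 n).trans hn⟩

end finite

section

variable {𝒪 : Type} [CommRing 𝒪] [IsLocalRing 𝒪] {rbar : GQ →* M2 (ResidueField 𝒪)}
  (sd : SliceData rbar)

/-- The joint ring of a family of representations `r j` over `T j`. -/
structure JRing {J : Type} (T : J → Type) [∀ j, CommRing (T j)] [∀ j, Algebra 𝒪 (T j)]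
    (r : ∀ j, GQ →* M2 (T j)) where
  /-- the ring -/
  R : Type
  [commRing : CommRing R]
  [isLocalRing : IsLocalRing R]
  [isNoetherianRing : IsNoetherianRing R]
  [isAdicComplete : IsAdicComplete (maximalIdeal R) R]
  [algebra : Algebra 𝒪 R]
  [isLocalHom : IsLocalHom (algebraMap 𝒪 R)]
  [finite : Module.Finite 𝒪 R]
  surj : Function.Surjective (residue R ∘ algebraMap 𝒪 R)
  /-- the representation -/
  r0 : GQ →* M2 R
  cont : MatCont R r0
  red : Red rbar r0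
  norm : Norm sd r0
  /-- the projections -/
  pr : ∀ j, R →ₐ[𝒪] T j
  pr_r0 : ∀ j, mapRep (pr j : R →+* T j) r0 = r j
  inj : ∀ x, (∀ j, pr j x = 0) → x = 0
  adj : Algebra.adjoin 𝒪 {x : R | ∃ σ i j, x = r0 σ i j} = ⊤

attribute [instance] JRing.commRing JRing.isLocalRing JRing.isNoetherianRing
  JRing.isAdicComplete JRing.algebra JRing.isLocalHom JRing.finite

end

section construction

variable {𝒪 : Type} [CommRing 𝒪] [IsLocalRing 𝒪] [IsNoetherianRing 𝒪]
  [IsAdicComplete (maximalIdeal 𝒪) 𝒪] {rbar : GQ →* M2 (ResidueField 𝒪)}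
  (sd : SliceData rbar) {J : Type} [Finite J] [Nonempty J] (T : J → Type)
  [∀ j, CommRing (T j)] [∀ j, IsLocalRing (T j)] [∀ j, Algebra 𝒪 (T j)]
  [∀ j, IsLocalHom (algebraMap 𝒪 (T j))] [∀ j, Module.Finite 𝒪 (T j)]
  (r : ∀ j, GQ →* M2 (T j)) (hc : ∀ j, MatCont (T j) (r j)) (hr : ∀ j, Red rbar (r j))
  (hn : ∀ j, Norm sd (r j))

/-- the joint subalgebra -/
def jsub : Subalgebra 𝒪 (∀ j, T j) :=
  Algebra.adjoin 𝒪 {x | ∃ σ i k, x = fun j => r j σ i k}

variable {T r}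

theorem entry_mem (σ : GQ) (i k : Fin 2) : (fun j => r j σ i k) ∈ jsub (𝒪 := 𝒪) T r :=
  Algebra.subset_adjoin ⟨σ, i, k, rfl⟩

include hr in
/-- all components of an element of the joint ring have the same residue. -/
theorem exists_common_res (x : ∀ j, T j) (hx : x ∈ jsub (𝒪 := 𝒪) T r) :
    ∃ o : 𝒪, ∀ j, x j - algebraMap 𝒪 (T j) o ∈ maximalIdeal (T j) := by
  induction hx using Algebra.adjoin_induction with
  | mem x hx =>
    obtain ⟨σ, i, k, rfl⟩ := hx
    obtain ⟨o, ho⟩ := residue_surjective (R := 𝒪) (rbar σ i k)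
    exact ⟨o, fun j => hr j σ i k o ho⟩
  | algebraMap o => exact ⟨o, fun j => by
      rw [Pi.algebraMap_apply, sub_self]; exact Ideal.zero_mem _⟩
  | add x y _ _ hx hy =>
    obtain ⟨a, ha⟩ := hx
    obtain ⟨b, hb⟩ := hy
    refine ⟨a + b, fun j => ?_⟩
    rw [map_add, Pi.add_apply, add_sub_add_comm]
    exact Ideal.add_mem _ (ha j) (hb j)
  | mul x y _ _ hx hy =>
    obtain ⟨a, ha⟩ := hx
    obtain ⟨b, hb⟩ := hy
    refine ⟨a * b, fun j => ?_⟩
    have e : (x * y) j - algebraMap 𝒪 (T j) (a * b) =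
        (x j - algebraMap 𝒪 (T j) a) * y j +
          algebraMap 𝒪 (T j) a * (y j - algebraMap 𝒪 (T j) b) := by
      rw [map_mul, Pi.mul_apply]; ring
    rw [e]
    exact Ideal.add_mem _ (Ideal.mul_mem_right _ _ (ha j)) (Ideal.mul_mem_left _ _ (hb j))

/-- element of the joint ring is a unit iff one component is. -/
theorem isUnit_of_comp (hr : ∀ j, Red rbar (r j)) (x : jsub (𝒪 := 𝒪) T r) (j₀ : J)
    (hx : IsUnit ((x : ∀ j, T j) j₀)) :
    IsUnit x := by
  obtain ⟨o, ho⟩ := exists_common_res hr x.1 x.2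
  have ho' : IsUnit o := by
    have h1 : IsUnit (algebraMap 𝒪 (T j₀) o) := by
      by_contra h2
      have h3 : algebraMap 𝒪 (T j₀) o ∈ maximalIdeal (T j₀) := h2
      have h4 := Ideal.add_mem _ (ho j₀) h3
      rw [sub_add_cancel] at h4
      exact h4 hx
    exact (isUnit_map_iff (algebraMap 𝒪 (T j₀)) o).mp h1
  have hu : IsUnit (x : ∀ j, T j) := by
    rw [Pi.isUnit_iff]
    intro j
    by_contra h2
    have h3 : (x : ∀ j, T j) j ∈ maximalIdeal (T j) := h2
    have h4 := Ideal.sub_mem _ h3 (ho j)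
    rw [sub_sub_cancel] at h4
    exact h4 (ho'.map _)
  have hint : Algebra.IsIntegral (jsub (𝒪 := 𝒪) T r) (∀ j, T j) :=
    Algebra.IsIntegral.tower_top (R := 𝒪)
  have hloc : IsLocalHom (algebraMap (jsub (𝒪 := 𝒪) T r) (∀ j, T j)) :=
    (algebraMap_isIntegral_iff.mpr hint).isLocalHom Subtype.val_injective
  exact isUnit_of_map_unit (algebraMap (jsub (𝒪 := 𝒪) T r) (∀ j, T j)) x hu

theorem isLocalRing_jsub (hr : ∀ j, Red rbar (r j)) : IsLocalRing (jsub (𝒪 := 𝒪) T r) := by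
  obtain ⟨j₀⟩ := (inferInstance : Nonempty J)
  have hnt : Nontrivial (jsub (𝒪 := 𝒪) T r) := by
    refine ⟨0, 1, fun h => ?_⟩
    have h1 : ((0 : jsub (𝒪 := 𝒪) T r) : ∀ j, T j) j₀ = ((1 : jsub (𝒪 := 𝒪) T r) : ∀ j, T j) j₀ := by
      rw [h]
    exact zero_ne_one h1
  refine IsLocalRing.of_isUnit_or_isUnit_one_sub_self fun x => ?_
  rcases IsLocalRing.isUnit_or_isUnit_one_sub_self ((x : ∀ j, T j) j₀) with h | h
  · exact Or.inl (isUnit_of_comp hr x j₀ h)
  · exact Or.inr (isUnit_of_comp hr (1 - x) j₀ h)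

theorem mem_maximalIdeal_jsub (hr : ∀ j, Red rbar (r j)) [IsLocalRing (jsub (𝒪 := 𝒪) T r)]
    (x : jsub (𝒪 := 𝒪) T r) (j₀ : J) :
    x ∈ maximalIdeal (jsub (𝒪 := 𝒪) T r) ↔ (x : ∀ j, T j) j₀ ∈ maximalIdeal (T j₀) := by
  rw [mem_maximalIdeal, mem_maximalIdeal, mem_nonunits_iff, mem_nonunits_iff, not_iff_not]
  constructor
  · intro h
    have h1 : IsUnit (x : ∀ j, T j) := h.map (jsub (𝒪 := 𝒪) T r).val
    exact (Pi.isUnit_iff.mp h1) j₀
  · exact isUnit_of_comp hr x j₀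

theorem finite_jsub : Module.Finite 𝒪 (jsub (𝒪 := 𝒪) T r) :=
  Module.Finite.of_injective (jsub (𝒪 := 𝒪) T r).val.toLinearMap Subtype.val_injective

theorem isLocalHom_jsub (hr : ∀ j, Red rbar (r j)) :
    IsLocalHom (algebraMap 𝒪 (jsub (𝒪 := 𝒪) T r)) := by
  obtain ⟨j₀⟩ := (inferInstance : Nonempty J)
  constructor
  intro o ho
  have h1 : IsUnit (algebraMap 𝒪 (jsub (𝒪 := 𝒪) T r) o : ∀ j, T j) :=
    ho.map (jsub (𝒪 := 𝒪) T r).val
  have h2 : IsUnit (algebraMap 𝒪 (T j₀) o) := (Pi.isUnit_iff.mp h1) j₀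
  exact (isUnit_map_iff (algebraMap 𝒪 (T j₀)) o).mp h2

variable (𝒪 T r) in
/-- the joint representation -/
noncomputable def jrep : GQ →* M2 (jsub (𝒪 := 𝒪) T r) where
  toFun σ := fun i k => ⟨fun j => r j σ i k, entry_mem σ i k⟩
  map_one' := by
    ext i k j
    show r j 1 i k = _
    rw [map_one]
    by_cases h : i = k
    · subst h; rw [Matrix.one_apply_eq, Matrix.one_apply_eq]; rfl
    · rw [Matrix.one_apply_ne h, Matrix.one_apply_ne h]; rfl
  map_mul' σ τ := by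
    ext i k j
    show r j (σ * τ) i k = _
    rw [map_mul, Matrix.mul_apply, Fin.sum_univ_two]
    refine Eq.trans ?_ (congrArg (fun z : jsub (𝒪 := 𝒪) T r => (z : ∀ j, T j) j)
      ((Matrix.mul_apply (M := (fun i k => ⟨fun j => r j σ i k, entry_mem σ i k⟩ :
        M2 (jsub (𝒪 := 𝒪) T r))) (N := (fun i k => ⟨fun j => r j τ i k, entry_mem τ i k⟩ :
        M2 (jsub (𝒪 := 𝒪) T r))) (i := i) (k := k)).trans (Fin.sum_univ_two _))).symm
    rfl

theorem coe_jrep (σ : GQ) (i k : Fin 2) (j : J) :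
    ((jrep 𝒪 T r σ i k : jsub (𝒪 := 𝒪) T r) : ∀ j, T j) j = r j σ i k := rfl

variable (𝒪 T r) in
/-- projections -/
def jpr (j : J) : jsub (𝒪 := 𝒪) T r →ₐ[𝒪] T j :=
  (Pi.evalAlgHom 𝒪 T j).comp (jsub (𝒪 := 𝒪) T r).val

theorem jpr_apply (j : J) (x : jsub (𝒪 := 𝒪) T r) : jpr 𝒪 T r j x = (x : ∀ j, T j) j := rfl

theorem jpr_jrep (j : J) : mapRep (jpr 𝒪 T r j : jsub (𝒪 := 𝒪) T r →+* T j) (jrep 𝒪 T r) = r j := by
  ext σ i k
  rfl

/-- comparison of topologies -/
theorem exists_pow_mem (n : ℕ) : ∃ N : ℕ, ∀ x : jsub (𝒪 := 𝒪) T r,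
    (∀ j, (x : ∀ j, T j) j ∈ maximalIdeal (T j) ^ N) →
      x ∈ (maximalIdeal 𝒪).map (algebraMap 𝒪 (jsub (𝒪 := 𝒪) T r)) ^ n := by
  classical
  have := Fintype.ofFinite J
  obtain ⟨k, hk⟩ := Ideal.exists_pow_inf_eq_pow_smul (R := 𝒪) (M := ∀ j, T j) (maximalIdeal 𝒪)
    (jsub (𝒪 := 𝒪) T r).toSubmodule
  choose N hN using fun j => exists_pow_le_map (O := 𝒪) (T := T j)
  let M : ℕ := Finset.univ.sup N
  refine ⟨M * (n + k), fun x hx => ?_⟩
  have h1 : (x : ∀ j, T j) ∈ (maximalIdeal 𝒪 ^ (n + k) • ⊤ : Submodule 𝒪 (∀ j, T j)) := by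
    have h2 : ∀ j, (x : ∀ j, T j) j ∈ (maximalIdeal 𝒪 ^ (n + k) • ⊤ : Submodule 𝒪 (T j)) := by
      intro j
      have h3 : maximalIdeal (T j) ^ (M * (n + k)) ≤
          ((maximalIdeal 𝒪 ^ (n + k)).map (algebraMap 𝒪 (T j))) := by
        rw [pow_mul, Ideal.map_pow]
        exact Ideal.pow_right_mono
          ((Ideal.pow_le_pow_right (Finset.le_sup (Finset.mem_univ j))).trans (hN j)) _
      have h4 := h3 (hx j)
      rw [Ideal.smul_top_eq_map]
      exact h4
    have h5 : (x : ∀ j, T j) = ∑ j, Pi.single j ((x : ∀ j, T j) j) :=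
      (Finset.univ_sum_single _).symm
    rw [h5]
    refine Submodule.sum_mem _ fun j _ => ?_
    have h6 : ∀ (I : Ideal 𝒪) (y : T j), y ∈ (I • ⊤ : Submodule 𝒪 (T j)) →
        (LinearMap.single 𝒪 T j y) ∈ (I • ⊤ : Submodule 𝒪 (∀ j, T j)) := by
      intro I y hy
      have h7 := Submodule.mem_map_of_mem (f := LinearMap.single 𝒪 T j) hy
      rw [Submodule.map_smul''] at h7
      exact Submodule.smul_mono le_rfl le_top h7
    exact h6 _ _ (h2 j)
  have h2 : (x : ∀ j, T j) ∈ maximalIdeal 𝒪 ^ (n + k) • (⊤ : Submodule 𝒪 (∀ j, T j)) ⊓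
      (jsub (𝒪 := 𝒪) T r).toSubmodule := ⟨h1, x.2⟩
  rw [hk (n + k) (Nat.le_add_left k n), Nat.add_sub_cancel] at h2
  have h3 : (maximalIdeal 𝒪 ^ n • (maximalIdeal 𝒪 ^ k • (⊤ : Submodule 𝒪 (∀ j, T j)) ⊓
      (jsub (𝒪 := 𝒪) T r).toSubmodule)) ≤
      (maximalIdeal 𝒪 ^ n • (⊤ : Submodule 𝒪 (jsub (𝒪 := 𝒪) T r))).map
        (jsub (𝒪 := 𝒪) T r).val.toLinearMap := by
    rw [Submodule.map_smul'']
    refine Submodule.smul_mono le_rfl ?_
    rintro y ⟨-, hy⟩
    exact ⟨⟨y, hy⟩, trivial, rfl⟩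
  obtain ⟨y, hy, hxy⟩ := h3 h2
  have hxy' : y = x := Subtype.ext hxy
  rw [hxy', Ideal.smul_top_eq_map, Ideal.map_pow] at hy
  exact hy

theorem isNoetherianRing_jsub : IsNoetherianRing (jsub (𝒪 := 𝒪) T r) :=
  have := finite_jsub (𝒪 := 𝒪) (T := T) (r := r)
  IsNoetherianRing.of_finite 𝒪 _

theorem isAdicComplete_jsub [IsLocalRing (jsub (𝒪 := 𝒪) T r)]
    [IsLocalHom (algebraMap 𝒪 (jsub (𝒪 := 𝒪) T r))] :
    IsAdicComplete (maximalIdeal (jsub (𝒪 := 𝒪) T r)) (jsub (𝒪 := 𝒪) T r) :=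
  have := finite_jsub (𝒪 := 𝒪) (T := T) (r := r)
  IsLocalRing.isAdicComplete_of_module_finite (𝒪 := 𝒪)

theorem cont_jrep [IsLocalRing (jsub (𝒪 := 𝒪) T r)]
    [IsLocalHom (algebraMap 𝒪 (jsub (𝒪 := 𝒪) T r))] (hc : ∀ j, MatCont (T j) (r j)) :
    MatCont (jsub (𝒪 := 𝒪) T r) (jrep 𝒪 T r) := by
  classical
  intro n
  obtain ⟨N, hN⟩ := exists_pow_mem (𝒪 := 𝒪) (T := T) (r := r) n
  choose L hL hL' using fun j => hc j N
  refine ⟨⨆ j, L j, ?_, fun σ hσ i k => ?_⟩
  · have := Fintype.ofFinite J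
    exact IntermediateField.finiteDimensional_iSup_of_finite
  · have h1 := hN ((jrep 𝒪 T r σ - 1) i k) (fun j => by
      have h2 := hL' j σ (fun x hx => hσ x ((le_iSup L j) hx)) i k
      have h3 : (((jrep 𝒪 T r σ - 1) i k : jsub (𝒪 := 𝒪) T r) : ∀ j, T j) j =
          (r j σ - 1) i k := by
        rw [Matrix.sub_apply, Matrix.sub_apply]
        by_cases h : i = k
        · subst h; rw [Matrix.one_apply_eq, Matrix.one_apply_eq]; rfl
        · rw [Matrix.one_apply_ne h, Matrix.one_apply_ne h]; rfl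
      rw [h3]
      exact h2)
    refine Ideal.pow_right_mono ?_ n h1
    rw [Ideal.map_le_iff_le_comap]
    intro o ho
    rw [Ideal.mem_comap]
    exact map_nonunit (algebraMap 𝒪 (jsub (𝒪 := 𝒪) T r)) o ho

/-- **Existence of the joint ring.** -/
theorem exists_jring (hc : ∀ j, MatCont (T j) (r j)) (hr : ∀ j, Red rbar (r j))
    (hn : ∀ j, Norm sd (r j)) : Nonempty (JRing sd T r) := by
  obtain ⟨j₀⟩ := (inferInstance : Nonempty J)
  have i1 : IsLocalRing (jsub (𝒪 := 𝒪) T r) := isLocalRing_jsub hr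
  have i2 : IsLocalHom (algebraMap 𝒪 (jsub (𝒪 := 𝒪) T r)) := isLocalHom_jsub hr
  have i3 : Module.Finite 𝒪 (jsub (𝒪 := 𝒪) T r) := finite_jsub
  have i4 : IsNoetherianRing (jsub (𝒪 := 𝒪) T r) := isNoetherianRing_jsub
  have i5 : IsAdicComplete (maximalIdeal (jsub (𝒪 := 𝒪) T r)) (jsub (𝒪 := 𝒪) T r) :=
    isAdicComplete_jsub
  have hinj : ∀ x : jsub (𝒪 := 𝒪) T r, (∀ j, jpr 𝒪 T r j x = 0) → x = 0 := by
    intro x hx
    apply Subtype.ext
    funext j
    exact hx j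
  refine ⟨{ R := jsub (𝒪 := 𝒪) T r
            surj := ?_
            r0 := jrep 𝒪 T r
            cont := cont_jrep hc
            red := ?_
            norm := ?_
            pr := jpr 𝒪 T r
            pr_r0 := jpr_jrep
            inj := hinj
            adj := ?_ }⟩
  · intro y
    obtain ⟨x, rfl⟩ := residue_surjective y
    obtain ⟨o, ho⟩ := exists_common_res hr x.1 x.2
    refine ⟨o, ?_⟩
    have h1 : x - algebraMap 𝒪 (jsub (𝒪 := 𝒪) T r) o ∈ maximalIdeal (jsub (𝒪 := 𝒪) T r) := by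
      rw [mem_maximalIdeal_jsub hr _ j₀]
      exact ho j₀
    rw [← residue_eq_zero_iff, map_sub, sub_eq_zero] at h1
    exact h1.symm
  · intro σ i k o ho
    rw [mem_maximalIdeal_jsub hr _ j₀]
    exact hr j₀ σ i k o ho
  · have key : ∀ (c : GQ →₀ 𝒪) (i k : Fin 2) (z : jsub (𝒪 := 𝒪) T r),
        (∀ j, (Finsupp.linearCombination 𝒪 (r j) c) i k = jpr 𝒪 T r j z) →
        (Finsupp.linearCombination 𝒪 (jrep 𝒪 T r) c) i k = z := by
      intro c i k z hz
      rw [← sub_eq_zero]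
      apply hinj
      intro j
      rw [map_sub, ← lc_map, jpr_jrep, hz, sub_self]
    exact ⟨key _ _ _ 0 fun j => by rw [(hn j).s1, map_zero],
      key _ _ _ 0 fun j => by rw [(hn j).s2, map_zero],
      key _ _ _ 1 fun j => by rw [(hn j).s3, map_one]⟩
  · have h1 := Algebra.adjoin_adjoin_coe_preimage (R := 𝒪) (A := ∀ j, T j)
      (s := {x | ∃ σ i k, x = fun j => r j σ i k})
    rw [← top_le_iff]
    refine h1.ge.trans (Algebra.adjoin_mono ?_)
    rintro x ⟨σ, i, k, hx⟩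
    exact ⟨σ, i, k, Subtype.ext hx⟩

end construction

section maps

variable {𝒪 : Type} [CommRing 𝒪] [IsLocalRing 𝒪] {rbar : GQ →* M2 (ResidueField 𝒪)}
  {sd : SliceData rbar} {J J' : Type} {T : J → Type} {T' : J' → Type}
  [∀ j, CommRing (T j)] [∀ j, Algebra 𝒪 (T j)] [∀ j, CommRing (T' j)] [∀ j, Algebra 𝒪 (T' j)]
  {r : ∀ j, GQ →* M2 (T j)} {r' : ∀ j, GQ →* M2 (T' j)}

/-- Homomorphisms from a joint ring are determined by the entries. -/
theorem JRing.hom_ext (A : JRing sd T r) {B : Type*} [CommRing B] [Algebra 𝒪 B]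
    (f g : A.R →ₐ[𝒪] B) (h : ∀ σ i j, f (A.r0 σ i j) = g (A.r0 σ i j)) : f = g := by
  ext x
  have hx : x ∈ Algebra.adjoin 𝒪 {x : A.R | ∃ σ i j, x = A.r0 σ i j} := by
    rw [A.adj]; trivial
  induction hx using Algebra.adjoin_induction with
  | mem x hx =>
    obtain ⟨σ, i, j, rfl⟩ := hx
    exact h σ i j
  | algebraMap o => rw [AlgHom.commutes, AlgHom.commutes]
  | add x y _ _ hx hy => rw [map_add, map_add, hx, hy]
  | mul x y _ _ hx hy => rw [map_mul, map_mul, hx, hy]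

theorem JRing.surjective_of_map (A : JRing sd T r) (B : JRing sd T' r') (π : A.R →ₐ[𝒪] B.R)
    (hπ : mapRep (π : A.R →+* B.R) A.r0 = B.r0) : Function.Surjective π := by
  rw [← AlgHom.range_eq_top, ← top_le_iff, ← B.adj, Algebra.adjoin_le_iff]
  rintro _ ⟨σ, i, j, rfl⟩
  refine ⟨A.r0 σ i j, ?_⟩
  rw [← hπ]
  rfl

/-- **Functoriality of joint rings.** -/
theorem JRing.exists_map (A : JRing sd T r) (B : JRing sd T' r') (f : J' → J)
    (a : ∀ j', T (f j') →ₐ[𝒪] T' j')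
    (ha : ∀ j', mapRep (a j' : T (f j') →+* T' j') (r (f j')) = r' j') :
    ∃ π : A.R →ₐ[𝒪] B.R, Function.Surjective π ∧ mapRep (π : A.R →+* B.R) A.r0 = B.r0 ∧
      ∀ j' x, B.pr j' (π x) = a j' (A.pr (f j') x) := by
  let ψ : A.R →ₐ[𝒪] (∀ j', T' j') := AlgHom.pi fun j' => (a j').comp (A.pr (f j'))
  let ι : B.R →ₐ[𝒪] (∀ j', T' j') := AlgHom.pi B.pr
  have hι : Function.Injective ι := by
    rw [injective_iff_map_eq_zero]
    intro x hx
    exact B.inj x fun j => congrFun hx j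
  have hent : ∀ σ i j, ψ (A.r0 σ i j) = ι (B.r0 σ i j) := by
    intro σ i j
    funext j'
    show a j' (A.pr (f j') (A.r0 σ i j)) = B.pr j' (B.r0 σ i j)
    have h1 : A.pr (f j') (A.r0 σ i j) = r (f j') σ i j := by rw [← A.pr_r0 (f j')]; rfl
    have h2 : B.pr j' (B.r0 σ i j) = r' j' σ i j := by rw [← B.pr_r0 j']; rfl
    rw [h1, h2, ← ha j']
    rfl
  have hr : ∀ x, ψ x ∈ ι.range := by
    intro x
    have hx : x ∈ Algebra.adjoin 𝒪 {x : A.R | ∃ σ i j, x = A.r0 σ i j} := by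
      rw [A.adj]; trivial
    induction hx using Algebra.adjoin_induction with
    | mem x hx =>
      obtain ⟨σ, i, j, rfl⟩ := hx
      rw [hent]
      exact ⟨_, rfl⟩
    | algebraMap o => rw [AlgHom.commutes]; exact Subalgebra.algebraMap_mem _ o
    | add x y _ _ hx hy => rw [map_add]; exact add_mem hx hy
    | mul x y _ _ hx hy => rw [map_mul]; exact mul_mem hx hy
  let e := AlgEquiv.ofInjective ι hι
  let π : A.R →ₐ[𝒪] B.R := (e.symm : ι.range →ₐ[𝒪] B.R).comp (ψ.codRestrict ι.range hr)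
  have hπ : ∀ x, ι (π x) = ψ x := by
    intro x
    have h1 : e (π x) = ψ.codRestrict ι.range hr x := e.apply_symm_apply _
    exact congrArg Subtype.val h1
  have hπr : mapRep (π : A.R →+* B.R) A.r0 = B.r0 := by
    ext σ i j
    apply hι
    exact (hπ _).trans (hent σ i j)
  exact ⟨π, A.surjective_of_map B π hπr, hπr, fun j' x => congrFun (hπ x) j'⟩

end maps

end Fermat.Agent.RT8J
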